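import Fermat.Agent.LT.T7.H973.PairBQSpec
import Fermat.Agent.LT.T7.H193.TorusPar
import Fermat.Agent.LT.T7.H865.TorAvgW
import Fermat.Agent.LT.T7.H195.PosScal
import Fermat.Agent.LT.T7.H62P.PushParCore

/-!
# Row LT, tower T7, leaf T7.L2Q.1.H2a.B.R `RelTorusQC973` (registry row 3041, owner helper62)

OFF-MAIN.  `relTorusQC62 (F) : PBQ973.RelTorusQC973 F`, VERBATIM against
`T7/H973/PairBQSpec.lean` (helper973@ae02d01c3, sha256 96c6054ecdb60177), unconditional.
No hole, nothing assumed.  New names only (suffix `62`).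

Proof.  `a`, `a'` = the positive scalars (`H195.posScalC195`); `c = log t₀`, `t₀² = 2`,
`c' = log t₀'`, `t₀'⁴ = 2` (`[F : ℚ] = 2`: one complex place), so `c = 2 c'`; `D`, `D'` = the
fundamental parallelepipeds of the bases `(fun _ => c)` of `ℝ^{S_∞(ℚ)}` and `(fun _ => c')` of
`ℝ^{S_∞(F)}` (the second one indexed by `S_∞(ℚ) ⊕ ∅`); torus data and `ray` from
`H193.torusParC193` (the periods are mapped to the ray generators: `H865.g_ext865`); `maps`,
`onto`, `push` from the Mathlib-only core `H62P.pushPar_core62` (= `H193.PushParC`) for the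
linear map `N t' = 2 ∑_w t'_w`.
-/

set_option autoImplicit false
set_option linter.unusedSectionVars false
set_option linter.style.haveILetI false

open IsDedekindDomain NumberField MeasureTheory

noncomputable section

namespace Fermat.Agent.LT.T7.H62Q

open Fermat.Agent.LT.H556 Fermat.Agent.LT.H556.A0 Fermat.Agent.LT Fermat.Agent.LT.T7
open Fermat.Agent.LT.T7.H193 Fermat.Agent.LT.T7.H893

/-- The value of the positive scalars at the constant vector `log t₀` is the ray generator. -/
theorem a_const_eq_ray62 (K : Type) [Field K] [NumberField K]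
    (a : (InfinitePlace K → ℝ) → G K)
    (ha_inf : ∀ (t : InfinitePlace K → ℝ) (w : InfinitePlace K),
      infComp w (a t) = Matrix.diagonal fun _ => ((Real.exp (t w) : ℝ) : ℂ))
    (ha_fin : ∀ (t : InfinitePlace K → ℝ) (v : HeightOneSpectrum (𝓞 K)), TrivAtFin v (a t))
    (r : G K) (hrfin : ∀ v : HeightOneSpectrum (𝓞 K), TrivAtFin v r) (t₀ : ℝ) (ht₀ : 0 < t₀)
    (hrinf : ∀ w : InfinitePlace K, infComp w r = Matrix.diagonal (fun _ => (t₀ : ℂ))) :
    a (fun _ => Real.log t₀) = r := by
  apply H865.g_ext865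
  · intro w
    rw [ha_inf, hrinf, Real.exp_log ht₀]
  · intro v
    rw [show finComp v (a fun _ => Real.log t₀) = 1 from ha_fin _ v,
      show finComp v r = 1 from hrfin v]

/-- Torus data for the fundamental parallelepiped of a basis of periods (any index type). -/
theorem torusData_of_basis62 (K : Type) [Field K] [NumberField K] {ι : Type} [Fintype ι]
    (B : Module.Basis ι ℝ (InfinitePlace K → ℝ))
    (a : (InfinitePlace K → ℝ) → G K) (ha_cont : Continuous a)
    (ha_mul : ∀ s t : InfinitePlace K → ℝ, a (s + t) = a s * a t)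
    (ha_inf : ∀ (t : InfinitePlace K → ℝ) (w : InfinitePlace K),
      infComp w (a t) = Matrix.diagonal fun _ => ((Real.exp (t w) : ℝ) : ℂ))
    (ha_fin : ∀ (t : InfinitePlace K → ℝ) (v : HeightOneSpectrum (𝓞 K)), TrivAtFin v (a t))
    (ha_central : ∀ (t : InfinitePlace K → ℝ) (g : G K), a t * g = g * a t)
    (𝔑 : Ideal (𝓞 K)) (r : G K) (hB : ∀ i, a (B i) = r) :
    IsTorusData 𝔑 r a (ZSpan.fundamentalDomain B) ∧
      ∀ e : G K → ℂ, (∀ g : G K, e (g * r) = e g) →
        ∀ (g : G K) (s : InfinitePlace K → ℝ),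
          ∫ t in ZSpan.fundamentalDomain B, e (g * a (t + s))
            = ∫ t in ZSpan.fundamentalDomain B, e (g * a t) := by
  obtain ⟨hDm, hDb, hDp, hDmean⟩ := torusParC193 ι (InfinitePlace K) B
  have hM : ∀ e : G K → ℂ, (∀ g : G K, e (g * r) = e g) →
      ∀ (g : G K) (s : InfinitePlace K → ℝ),
        ∫ t in ZSpan.fundamentalDomain B, e (g * a (t + s))
          = ∫ t in ZSpan.fundamentalDomain B, e (g * a t) := by
    intro e he g s
    refine hDmean (fun t => e (g * a t)) (fun i t => ?_) s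
    show e (g * a (t + B i)) = e (g * a t)
    rw [ha_mul, ← mul_assoc, hB i]
    exact he _
  exact ⟨⟨ha_cont, ha_mul, ha_inf, ha_fin, ha_central, hDm, hDb, hDp,
    fun e he _ g s => hM e he.ray g s⟩, hM⟩

/-- The degree of a field with one infinite place, which is complex. -/
theorem finrank_of_imagQuad62 (F : Type) [Field F] [NumberField F] (hF : IsImagQuad F) :
    Module.finrank ℚ F = 2 := by
  classical
  obtain ⟨hcard, hcplx⟩ := hF
  have h1 : InfinitePlace.nrRealPlaces F = 0 :=
    NumberField.nrRealPlaces_eq_zero_iff.mpr ⟨hcplx⟩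
  have h2 := InfinitePlace.card_eq_nrRealPlaces_add_nrComplexPlaces (K := F)
  have h3 := InfinitePlace.card_add_two_mul_card_eq_rank (K := F)
  rw [Nat.card_eq_fintype_card] at hcard
  omega

/-- The linear form of the norm of the quadratic step. -/
def normLin62 (F : Type) [Field F] [NumberField F] :
    (InfinitePlace F → ℝ) →ₗ[ℝ] (InfinitePlace ℚ → ℝ) where
  toFun := PBQ973.normVec973
  map_add' x y := by
    funext _
    simp only [PBQ973.normVec973, Pi.add_apply, Finset.sum_add_distrib]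
    ring
  map_smul' c x := by
    funext _
    simp only [PBQ973.normVec973, Pi.smul_apply, smul_eq_mul, RingHom.id_apply,
      ← Finset.mul_sum]
    ring

theorem normLin62_apply (F : Type) [Field F] [NumberField F] (t' : InfinitePlace F → ℝ) :
    normLin62 F t' = PBQ973.normVec973 t' := rfl

/-- **LEAF PBQ.R = REL-TORUS over `ℚ`**, closed. -/
theorem relTorusQC62 (F : Type) [Field F] [NumberField F] : PBQ973.RelTorusQC973 F := by
  intro hF 𝔫 _h𝔫 r r' hr hr'
  classical
  have hrankF : Module.finrank ℚ F = 2 := finrank_of_imagQuad62 F hF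
  have hrankQ : Module.finrank ℚ ℚ = 1 := Module.finrank_self ℚ
  obtain ⟨hcard, -⟩ := hF
  haveI : Subsingleton (InfinitePlace F) := (Nat.card_eq_one_iff_unique.mp hcard).1
  haveI : Nonempty (InfinitePlace F) := (Nat.card_eq_one_iff_unique.mp hcard).2
  have hcardF : Fintype.card (InfinitePlace F) = 1 := by
    rw [← Nat.card_eq_fintype_card]
    exact hcard
  obtain ⟨a, ha_cont, ha_mul, ha_inf, ha_fin, ha_central⟩ := H195.posScalC195 ℚ
  obtain ⟨a', ha_cont', ha_mul', ha_inf', ha_fin', ha_central'⟩ := H195.posScalC195 F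
  obtain ⟨hrfin, t₀, ht₀pos, ht₀pow, hrinf⟩ := hr
  obtain ⟨hrfin', t₀', ht₀pos', ht₀pow', hrinf'⟩ := hr'
  rw [hrankQ] at ht₀pow
  rw [hrankF] at ht₀pow'
  -- the periods
  have hl2 : 0 < Real.log 2 := Real.log_pos (by norm_num)
  have hlog : (2 : ℝ) * Real.log t₀ = Real.log 2 := by
    have := congrArg Real.log ht₀pow
    rw [Real.log_pow] at this
    simpa using this
  have hlog' : (4 : ℝ) * Real.log t₀' = Real.log 2 := by
    have := congrArg Real.log ht₀pow'
    rw [Real.log_pow] at this
    simpa using this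
  have hc : Real.log t₀ ≠ 0 := by
    intro h0
    rw [h0] at hlog
    linarith
  have hc' : Real.log t₀' ≠ 0 := by
    intro h0
    rw [h0] at hlog'
    linarith
  have hcc : Real.log t₀ = 2 * Real.log t₀' := by linarith
  -- the bases
  have hu : ∀ _ : InfinitePlace ℚ, IsUnit (Real.log t₀) := fun _ => IsUnit.mk0 _ hc
  have hu' : ∀ _ : InfinitePlace F, IsUnit (Real.log t₀') := fun _ => IsUnit.mk0 _ hc'
  obtain ⟨b, hb⟩ : ∃ b : Module.Basis (InfinitePlace ℚ) ℝ (InfinitePlace ℚ → ℝ),
      ∀ i : InfinitePlace ℚ, b i = fun _ => Real.log t₀ := by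
    refine ⟨(Pi.basisFun ℝ (InfinitePlace ℚ)).isUnitSMul hu, fun i => ?_⟩
    rw [Module.Basis.isUnitSMul_apply]
    funext w
    rw [Subsingleton.elim w i]
    simp
  letI : Unique (InfinitePlace F) := uniqueOfSubsingleton (Classical.arbitrary _)
  let eq0 : InfinitePlace F ≃ InfinitePlace ℚ ⊕ Empty :=
    (Equiv.ofUnique (InfinitePlace F) (InfinitePlace ℚ)).trans
      (Equiv.sumEmpty (InfinitePlace ℚ) Empty).symm
  obtain ⟨B, hB⟩ : ∃ B : Module.Basis (InfinitePlace ℚ ⊕ Empty) ℝ (InfinitePlace F → ℝ),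
      ∀ k : InfinitePlace ℚ ⊕ Empty, B k = fun _ => Real.log t₀' := by
    refine ⟨((Pi.basisFun ℝ (InfinitePlace F)).isUnitSMul hu').reindex eq0, fun k => ?_⟩
    rw [Module.Basis.reindex_apply, Module.Basis.isUnitSMul_apply]
    funext w
    rw [Subsingleton.elim w (eq0.symm k)]
    simp
  -- the values at the periods
  have hab : ∀ i, a (b i) = r := fun i => by
    rw [hb i]
    exact a_const_eq_ray62 ℚ a ha_inf ha_fin r hrfin t₀ ht₀pos hrinf
  have haB : ∀ k, a' (B k) = r' := fun k => by
    rw [hB k]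
    exact a_const_eq_ray62 F a' ha_inf' ha_fin' r' hrfin' t₀' ht₀pos' hrinf'
  obtain ⟨hdown, hray⟩ :=
    torusData_of_basis62 ℚ b a ha_cont ha_mul ha_inf ha_fin ha_central 𝔫 r hab
  obtain ⟨hup, -⟩ :=
    torusData_of_basis62 F B a' ha_cont' ha_mul' ha_inf' ha_fin' ha_central'
      (upI (K' := F) 𝔫) r' haB
  -- the push-forward
  have hN1 : ∀ i, normLin62 F (B (Sum.inl i)) = b i := by
    intro i
    rw [hB, hb, normLin62_apply]
    funext _
    simp only [PBQ973.normVec973, Finset.sum_const, Finset.card_univ, hcardF, one_smul]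
    linarith
  have hN2 : ∀ j : Empty, normLin62 F (B (Sum.inr j)) = 0 := fun j => j.elim
  obtain ⟨hmaps, honto, hpush⟩ :=
    H62P.pushPar_core62 (InfinitePlace ℚ) (InfinitePlace F) Empty (normLin62 F) b B hN1 hN2
  exact ⟨a, ZSpan.fundamentalDomain b, a', ZSpan.fundamentalDomain B,
    ⟨hdown, hray, hup, hmaps, honto, hpush⟩⟩

end Fermat.Agent.LT.T7.H62Q

end
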